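import Mathlib
import Fermat.Agent.LT.T2.H429.OpsSpec

/-!
# Row LT, tower T2, sub-leaf T2.07.13 `SubCirclePres429` (helper621): basic tools

OFF-MAIN.  Componentwise extensionality of `G K`, multiplicativity of the components, commutation
of elements with disjoint supports, the rotations `rotY`, real special orthogonal matrices.
-/

set_option autoImplicit false
set_option linter.unusedSectionVars false

open IsDedekindDomain NumberField MeasureTheory
open Fermat.Agent.LT.H556.A0
open Fermat.Agent.LT.T2
open scoped ComplexConjugate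

noncomputable section

namespace Fermat.Agent.LT.T2.H621

open NumberField.InfinitePlace

variable {K : Type} [Field K] [NumberField K]

/-! ## Components -/

/-- The component at the infinite place `w`. -/
def infPr621 (w : InfinitePlace K) : Adl K →+* w.Completion :=
  (Pi.evalRingHom (fun v : InfinitePlace K => v.Completion) w).comp
    (RingHom.fst (InfiniteAdeleRing K) (FiniteAdeleRing (𝓞 K) K))

/-- The component at the finite place `v`. -/
def finPr621 (v : HeightOneSpectrum (𝓞 K)) : Adl K →+* v.adicCompletion K :=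
  (RestrictedProduct.evalRingHom (fun v : HeightOneSpectrum (𝓞 K) => v.adicCompletion K) v).comp
    (RingHom.snd (InfiniteAdeleRing K) (FiniteAdeleRing (𝓞 K) K))

theorem adl_ext621 {a b : Adl K} (hinf : ∀ w : InfinitePlace K, a.1 w = b.1 w)
    (hfin : ∀ v : HeightOneSpectrum (𝓞 K), a.2 v = b.2 v) : a = b :=
  Prod.ext (funext hinf) (RestrictedProduct.ext _ _ hfin)

theorem finComp_eq621 (v : HeightOneSpectrum (𝓞 K)) (g : G K) :
    finComp v g = (g : Matrix (Fin 2) (Fin 2) (Adl K)).map (finPr621 v) := rfl

theorem infComp_eq621 (w : InfinitePlace K) (g : G K) :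
    infComp w g = (g : Matrix (Fin 2) (Fin 2) (Adl K)).map
      ((Completion.extensionEmbedding w).comp (infPr621 w)) := rfl

theorem infComp_mul621' (w : InfinitePlace K) (g h : G K) :
    infComp w (g * h) = infComp w g * infComp w h := by
  rw [infComp_eq621, infComp_eq621, infComp_eq621, Units.val_mul, Matrix.map_mul]

theorem finComp_mul621' (v : HeightOneSpectrum (𝓞 K)) (g h : G K) :
    finComp v (g * h) = finComp v g * finComp v h := by
  rw [finComp_eq621, finComp_eq621, finComp_eq621, Units.val_mul, Matrix.map_mul]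

theorem infComp_one621 (w : InfinitePlace K) : infComp w (1 : G K) = 1 := by
  rw [infComp_eq621, Units.val_one]
  ext i j
  by_cases hij : i = j
  · subst hij; simp
  · simp [Matrix.one_apply_ne hij]

theorem infComp_inv_mul621' (w : InfinitePlace K) (g : G K) :
    infComp w g⁻¹ * infComp w g = 1 := by
  rw [← infComp_mul621', inv_mul_cancel, infComp_one621]

theorem infComp_of_triv621 (w : InfinitePlace K) (g : G K) (h : TrivAtInf w g) :
    infComp w g = 1 := by
  ext i j
  show Completion.extensionEmbedding w (((g : Matrix (Fin 2) (Fin 2) (Adl K)) i j).1 w) = _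
  rw [h i j]
  by_cases hij : i = j
  · subst hij; simp
  · simp [Matrix.one_apply_ne hij]

/-- Componentwise extensionality of `GL₂(𝔸_K)`. -/
theorem g_ext621 {a b : G K} (hinf : ∀ w : InfinitePlace K, infComp w a = infComp w b)
    (hfin : ∀ v : HeightOneSpectrum (𝓞 K), finComp v a = finComp v b) : a = b := by
  apply Units.ext
  ext i j
  refine adl_ext621 (fun w => ?_) (fun v => ?_)
  · have := congrFun (congrFun (hinf w) i) j
    exact (Completion.extensionEmbedding w).injective this
  · exact congrFun (congrFun (hfin v) i) j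

/-- Two elements commute if at every place one of the two components is central. -/
theorem commute_of_comp621 {a b : G K}
    (hinf : ∀ w : InfinitePlace K, infComp w a * infComp w b = infComp w b * infComp w a)
    (hfin : ∀ v : HeightOneSpectrum (𝓞 K), finComp v a * finComp v b = finComp v b * finComp v a) :
    a * b = b * a :=
  g_ext621 (fun w => by rw [infComp_mul621', infComp_mul621', hinf w])
    (fun v => by rw [finComp_mul621', finComp_mul621', hfin v])

/-- An element which is trivial at all infinite places commutes with an element supported at an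
infinite place. -/
theorem commute_of_trivInf621 (w : InfinitePlace K) {u y : G K}
    (hu : ∀ w' : InfinitePlace K, TrivAtInf w' u) (hy : IsLocalAtInf w y) : u * y = y * u := by
  refine commute_of_comp621 (fun w' => ?_) (fun v => ?_)
  · rw [infComp_of_triv621 w' u (hu w'), one_mul, mul_one]
  · have : finComp v y = 1 := hy.2 v
    rw [this, one_mul, mul_one]

/-- Elements supported at two different infinite places commute. -/
theorem commute_of_ne621 {w w' : InfinitePlace K} (hne : w' ≠ w) {z y : G K}
    (hz : IsLocalAtInf w' z) (hy : IsLocalAtInf w y) : z * y = y * z := by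
  refine commute_of_comp621 (fun w'' => ?_) (fun v => ?_)
  · by_cases h : w'' = w
    · subst h
      rw [infComp_of_triv621 _ z (hz.1 _ (Ne.symm hne)), one_mul, mul_one]
    · rw [infComp_of_triv621 _ y (hy.1 _ h), one_mul, mul_one]
  · have : finComp v y = 1 := hy.2 v
    rw [this, one_mul, mul_one]

/-- An element supported at `w` with scalar component commutes with every element supported at
`w`. -/
theorem commute_of_scalar621 (w : InfinitePlace K) {z y : G K} (hz : IsLocalAtInf w z)
    (hy : IsLocalAtInf w y) (c : ℂ) (hc : infComp w z = Matrix.diagonal (fun _ => c)) :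
    z * y = y * z := by
  refine commute_of_comp621 (fun w'' => ?_) (fun v => ?_)
  · by_cases h : w'' = w
    · subst h
      rw [hc]
      ext i j
      simp [Matrix.mul_apply, Matrix.diagonal_apply, mul_comm]
    · rw [infComp_of_triv621 _ y (hy.1 _ h), one_mul, mul_one]
  · have : finComp v y = 1 := hy.2 v
    rw [this, one_mul, mul_one]

/-- Two elements supported at `w` with the same component at `w` are equal. -/
theorem eq_of_local621 (w : InfinitePlace K) {a b : G K} (ha : IsLocalAtInf w a)
    (hb : IsLocalAtInf w b) (h : infComp w a = infComp w b) : a = b := by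
  refine g_ext621 (fun w' => ?_) (fun v => ?_)
  · by_cases hw : w' = w
    · subst hw; exact h
    · rw [infComp_of_triv621 _ a (ha.1 _ hw), infComp_of_triv621 _ b (hb.1 _ hw)]
  · have h1 : finComp v a = 1 := ha.2 v
    have h2 : finComp v b = 1 := hb.2 v
    rw [h1, h2]

theorem trivAtInf_iff_map621 (w : InfinitePlace K) (g : G K) :
    TrivAtInf w g ↔ (g : Matrix (Fin 2) (Fin 2) (Adl K)).map (infPr621 w) = 1 := by
  constructor
  · intro h
    exact Matrix.ext fun i j => h i j
  · intro h i j
    exact congrFun (congrFun h i) j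

theorem isLocalAtInf_mul621' (w : InfinitePlace K) (g h : G K) (hg : IsLocalAtInf w g)
    (hh : IsLocalAtInf w h) : IsLocalAtInf w (g * h) := by
  refine ⟨fun w' hw' => ?_, fun v => ?_⟩
  · rw [trivAtInf_iff_map621, Units.val_mul, Matrix.map_mul,
      (trivAtInf_iff_map621 w' g).1 (hg.1 w' hw'), (trivAtInf_iff_map621 w' h).1 (hh.1 w' hw'),
      one_mul]
  · show finComp v (g * h) = 1
    have h1 : finComp v g = 1 := hg.2 v
    have h2 : finComp v h = 1 := hh.2 v
    rw [finComp_mul621', h1, h2, one_mul]

theorem isLocalAtInf_inv621' (w : InfinitePlace K) (g : G K) (hg : IsLocalAtInf w g) :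
    IsLocalAtInf w g⁻¹ := by
  have key : ∀ {R : Type} [CommRing R] (f : Adl K →+* R),
      (g : Matrix (Fin 2) (Fin 2) (Adl K)).map f = 1 →
      ((g⁻¹ : G K) : Matrix (Fin 2) (Fin 2) (Adl K)).map f = 1 := by
    intro R _ f hf
    have h1 : ((g⁻¹ : G K) : Matrix (Fin 2) (Fin 2) (Adl K)).map f
        * (g : Matrix (Fin 2) (Fin 2) (Adl K)).map f = 1 := by
      rw [← Matrix.map_mul, ← Units.val_mul, inv_mul_cancel, Units.val_one]
      ext i j
      by_cases hij : i = j
      · subst hij; simp
      · simp [Matrix.one_apply_ne hij]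
    rwa [hf, mul_one] at h1
  refine ⟨fun w' hw' => ?_, fun v => ?_⟩
  · rw [trivAtInf_iff_map621]
    exact key _ ((trivAtInf_iff_map621 w' g).1 (hg.1 w' hw'))
  · show finComp v g⁻¹ = 1
    rw [finComp_eq621]
    exact key _ (hg.2 v)

/-! ## The rotations -/

theorem rotY_add621 (a b : ℝ) : rotY (a + b) = rotY a * rotY b := by
  have hc : Real.cos ((a + b) / 2) = Real.cos (a / 2) * Real.cos (b / 2)
      - Real.sin (a / 2) * Real.sin (b / 2) := by
    rw [add_div, Real.cos_add]
  have hs : Real.sin ((a + b) / 2) = Real.sin (a / 2) * Real.cos (b / 2)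
      + Real.cos (a / 2) * Real.sin (b / 2) := by
    rw [add_div, Real.sin_add]
  ext i j
  fin_cases i <;> fin_cases j
  · show ((Real.cos ((a + b) / 2) : ℝ) : ℂ) = _
    rw [hc]
    simp [rotY, Matrix.mul_apply, Fin.sum_univ_two]
    ring
  · show -((Real.sin ((a + b) / 2) : ℝ) : ℂ) = _
    rw [hs]
    simp [rotY, Matrix.mul_apply, Fin.sum_univ_two]
  · show ((Real.sin ((a + b) / 2) : ℝ) : ℂ) = _
    rw [hs]
    simp [rotY, Matrix.mul_apply, Fin.sum_univ_two]
  · show ((Real.cos ((a + b) / 2) : ℝ) : ℂ) = _
    rw [hc]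
    simp [rotY, Matrix.mul_apply, Fin.sum_univ_two]
    ring

theorem rotY_two_pi621 : rotY (2 * Real.pi) = -1 := by
  have h : (2 * Real.pi) / 2 = Real.pi := by ring
  ext i j
  fin_cases i <;> fin_cases j
  · show ((Real.cos ((2 * Real.pi) / 2) : ℝ) : ℂ) = _
    rw [h, Real.cos_pi]; simp
  · show -((Real.sin ((2 * Real.pi) / 2) : ℝ) : ℂ) = _
    rw [h, Real.sin_pi]; simp
  · show ((Real.sin ((2 * Real.pi) / 2) : ℝ) : ℂ) = _
    rw [h, Real.sin_pi]; simp
  · show ((Real.cos ((2 * Real.pi) / 2) : ℝ) : ℂ) = _
    rw [h, Real.cos_pi]; simp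

theorem rotY_add_two_pi621 (θ : ℝ) : rotY (θ + 2 * Real.pi) = -rotY θ := by
  rw [rotY_add621, rotY_two_pi621, Matrix.mul_neg, mul_one]

/-- A real special orthogonal `2 × 2` matrix is a rotation `rotY θ₀`. -/
theorem exists_rotY621 (M : Matrix (Fin 2) (Fin 2) ℂ) (hre : ∀ i j, (M i j).im = 0)
    (hu : M * M.conjTranspose = 1) (hdet : M.det = 1) : ∃ θ₀ : ℝ, M = rotY θ₀ := by
  -- the entries
  obtain ⟨p, hp⟩ : ∃ p : ℝ, M 0 0 = (p : ℂ) := ⟨(M 0 0).re, Complex.ext rfl (by simp [hre])⟩
  obtain ⟨q, hq⟩ : ∃ q : ℝ, M 0 1 = (q : ℂ) := ⟨(M 0 1).re, Complex.ext rfl (by simp [hre])⟩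
  obtain ⟨r, hr⟩ : ∃ r : ℝ, M 1 0 = (r : ℂ) := ⟨(M 1 0).re, Complex.ext rfl (by simp [hre])⟩
  obtain ⟨s, hs⟩ : ∃ s : ℝ, M 1 1 = (s : ℂ) := ⟨(M 1 1).re, Complex.ext rfl (by simp [hre])⟩
  have h00 := congrFun (congrFun hu 0) 0
  have h11 := congrFun (congrFun hu 1) 1
  simp only [Matrix.mul_apply, Fin.sum_univ_two, Matrix.conjTranspose_apply, hp, hq, hr, hs,
    Matrix.one_apply_eq, Complex.star_def, Complex.conj_ofReal] at h00 h11
  have e1 : p * p + q * q = 1 := by exact_mod_cast h00
  have e2 : r * r + s * s = 1 := by exact_mod_cast h11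
  have e3 : p * s - q * r = 1 := by
    have := hdet
    rw [Matrix.det_fin_two, hp, hq, hr, hs] at this
    exact_mod_cast this
  have hps : p = s := by nlinarith [sq_nonneg (p - s), sq_nonneg (q + r)]
  have hqr : r = -q := by nlinarith [sq_nonneg (p - s), sq_nonneg (q + r)]
  -- the angle
  set z : ℂ := ⟨p, r⟩ with hz
  have hnorm : ‖z‖ = 1 := by
    have h1 : ‖z‖ ^ 2 = 1 := by
      rw [Complex.sq_norm, Complex.normSq_apply]
      show p * p + r * r = 1
      rw [hqr]; nlinarith
    have h0 : 0 ≤ ‖z‖ := norm_nonneg z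
    nlinarith
  have hz0 : z ≠ 0 := by
    intro h; rw [h, norm_zero] at hnorm; exact zero_ne_one hnorm
  have hcos : Real.cos (Complex.arg z) = p := by
    rw [Complex.cos_arg hz0, hnorm, div_one]
  have hsin : Real.sin (Complex.arg z) = r := by
    rw [Complex.sin_arg, hnorm, div_one]
  refine ⟨2 * Complex.arg z, ?_⟩
  have h2 : (2 * Complex.arg z) / 2 = Complex.arg z := by ring
  ext i j
  fin_cases i <;> fin_cases j
  · show M 0 0 = ((Real.cos ((2 * Complex.arg z) / 2) : ℝ) : ℂ)
    rw [h2, hcos, hp]
  · show M 0 1 = -((Real.sin ((2 * Complex.arg z) / 2) : ℝ) : ℂ)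
    rw [h2, hsin, hq, hqr]; simp
  · show M 1 0 = ((Real.sin ((2 * Complex.arg z) / 2) : ℝ) : ℂ)
    rw [h2, hsin, hr]
  · show M 1 1 = ((Real.cos ((2 * Complex.arg z) / 2) : ℝ) : ℂ)
    rw [h2, hcos, hs, hps]

/-- At a real place the components are real. -/
theorem infComp_im621 (w : InfinitePlace K) (hw : w.IsReal) (g : G K) (i j : Fin 2) :
    (infComp w g i j).im = 0 := by
  show (Completion.extensionEmbedding w (((g : Matrix (Fin 2) (Fin 2) (Adl K)) i j).1 w)).im = 0
  rw [← Completion.extensionEmbeddingOfIsReal_apply hw]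
  exact Complex.ofReal_im _

end Fermat.Agent.LT.T2.H621

end
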