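import Mathlib
import Fermat.Agent.LT.T2.H621.CircleBase

/-!
# Row LT, tower T2, sub-leaf T2.07.13 `SubCirclePres429` (helper621)

OFF-MAIN.  The circle means at a real place preserve the cusp functions:
`subCirclePres_of621 : SubLocCont429 K → SubCirclePres429 K`.

* continuity: parametric interval integral of a jointly continuous function (`Y` is continuous by
  `SubLocCont429`);
* invariance under `U(𝔫)`, under the positive scalars and under the compact groups at the other
  places: the elements commute with `Y θ`;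
* invariance under `SO(2)` at the place of the mean: `k Y(θ) = Y(θ + θ₀)` and `θ ↦ φ(g Y(θ))` is
  `2π`-periodic (`rotY (θ + 2π) = - rotY θ`, `-1 ∈ SO(2)`);
* cuspidality: Fubini on `D × (0, 2π]` (`μ D < ∞` by `T1.AddFundDomC`).
-/

set_option autoImplicit false
set_option linter.unusedSectionVars false
set_option linter.style.haveILetI false

open IsDedekindDomain NumberField MeasureTheory
open Fermat.Agent.LT.H556.A0
open Fermat.Agent.LT.T2 Fermat.Agent.LT.T2.H429
open scoped ComplexConjugate

noncomputable section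

namespace Fermat.Agent.LT.T2.H621

open NumberField.InfinitePlace

variable {K : Type} [Field K] [NumberField K]

/-! ## Continuity of the parametrisations -/

theorem continuous_rotY621 : Continuous rotY := by
  refine continuous_matrix fun i j => ?_
  fin_cases i <;> fin_cases j
  · show Continuous fun β : ℝ => ((Real.cos (β / 2) : ℝ) : ℂ)
    fun_prop
  · show Continuous fun β : ℝ => -((Real.sin (β / 2) : ℝ) : ℂ)
    fun_prop
  · show Continuous fun β : ℝ => ((Real.sin (β / 2) : ℝ) : ℂ)
    fun_prop
  · show Continuous fun β : ℝ => ((Real.cos (β / 2) : ℝ) : ℂ)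
    fun_prop

theorem continuous_circle621 (hLC : SubLocCont429 K) (w : InfinitePlace K) (t : ℝ)
    (Y : ℝ → G K) (hY : IsCircleAt w t Y) : Continuous Y := by
  refine hLC w ℝ Y (fun θ => (hY θ).1) fun i j => ?_
  have h : (fun θ => infComp w (Y θ) i j) = fun θ => (rotY θ * torus t) i j :=
    funext fun θ => by rw [(hY θ).2]
  rw [h]
  exact (continuous_rotY621.matrix_mul continuous_const).matrix_elem i j

/-- The unipotent family is continuous. -/
theorem continuous_unip621 (n : Adl K → G K)
    (hn : ∀ x : Adl K, (n x : Matrix (Fin 2) (Fin 2) (Adl K)) = !![1, x; 0, 1]) :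
    Continuous n := by
  have hinv : ∀ x : Adl K,
      (((n x)⁻¹ : G K) : Matrix (Fin 2) (Fin 2) (Adl K)) = !![1, -x; 0, 1] := by
    intro x
    rw [Matrix.coe_units_inv, hn x]
    refine Matrix.inv_eq_left_inv ?_
    ext i j
    fin_cases i <;> fin_cases j <;> simp [Matrix.mul_apply, Fin.sum_univ_two]
  rw [Units.continuous_iff]
  constructor
  · have h : (Units.val ∘ n) = fun x : Adl K => !![1, x; 0, 1] := funext hn
    rw [h]
    refine continuous_matrix fun i j => ?_
    fin_cases i <;> fin_cases j
    · exact continuous_const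
    · exact continuous_id
    · exact continuous_const
    · exact continuous_const
  · have h : (fun x => (((n x)⁻¹ : G K) : Matrix (Fin 2) (Fin 2) (Adl K)))
        = fun x : Adl K => !![1, -x; 0, 1] := funext hinv
    rw [h]
    refine continuous_matrix fun i j => ?_
    fin_cases i <;> fin_cases j
    · exact continuous_const
    · exact continuous_neg
    · exact continuous_const
    · exact continuous_const

/-! ## Periodicity and the action of `SO(2)` -/

theorem isArchCompact_neg_one621 (w : InfinitePlace K) (c : G K) (hloc : IsLocalAtInf w c)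
    (hc : infComp w c = -1) : IsArchCompact w c := by
  refine ⟨hloc, ?_, fun _ => ?_⟩
  · rw [hc, Matrix.conjTranspose_neg, Matrix.conjTranspose_one, neg_mul_neg, one_mul]
  · rw [hc, Matrix.det_neg, Matrix.det_one]
    simp

/-- `θ ↦ φ (g Y(θ))` is `2π`-periodic. -/
theorem periodic_circle621 (φ : G K → ℂ)
    (hinv : ∀ (w : InfinitePlace K) (k : G K), IsArchCompact w k → ∀ g : G K, φ (g * k) = φ g)
    (w : InfinitePlace K) (t : ℝ) (Y : ℝ → G K) (hY : IsCircleAt w t Y) (g : G K) :
    Function.Periodic (fun θ => φ (g * Y θ)) (2 * Real.pi) := by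
  intro θ
  show φ (g * Y (θ + 2 * Real.pi)) = φ (g * Y θ)
  set c : G K := (Y θ)⁻¹ * Y (θ + 2 * Real.pi) with hc
  have hcloc : IsLocalAtInf w c :=
    isLocalAtInf_mul621' _ _ _ (isLocalAtInf_inv621' _ _ (hY θ).1) (hY _).1
  have hccomp : infComp w c = -1 := by
    rw [hc, infComp_mul621', (hY (θ + 2 * Real.pi)).2, rotY_add_two_pi621, Matrix.neg_mul,
      Matrix.mul_neg, ← (hY θ).2, infComp_inv_mul621']
  have hYY : Y (θ + 2 * Real.pi) = Y θ * c := by
    rw [hc, mul_inv_cancel_left]
  rw [hYY, ← mul_assoc]
  exact hinv w c (isArchCompact_neg_one621 w c hcloc hccomp) _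

/-- An element of `SO(2)` at the real place `w` translates the circle. -/
theorem exists_shift_circle621 (w : InfinitePlace K) (hw : w.IsReal) (t : ℝ) (Y : ℝ → G K)
    (hY : IsCircleAt w t Y) (k : G K) (hk : IsArchCompact w k) :
    ∃ θ₀ : ℝ, ∀ θ : ℝ, k * Y θ = Y (θ₀ + θ) := by
  obtain ⟨θ₀, hθ₀⟩ := exists_rotY621 (infComp w k) (infComp_im621 w hw k) hk.2.1 (hk.2.2 hw)
  refine ⟨θ₀, fun θ => ?_⟩
  refine eq_of_local621 w (isLocalAtInf_mul621' _ _ _ hk.1 (hY θ).1) (hY _).1 ?_
  rw [infComp_mul621', hθ₀, (hY θ).2, (hY (θ₀ + θ)).2, rotY_add621, Matrix.mul_assoc]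

/-! ## Countability -/

theorem countable_field621 (K : Type) [Field K] [NumberField K] : Countable K :=
  Function.Injective.countable (f := (Module.finBasis ℚ K).equivFun)
    (Module.finBasis ℚ K).equivFun.injective

theorem countable_range621 (K : Type) [Field K] [NumberField K] :
    Countable ((algebraMap K (Adl K)).toAddMonoidHom.range) := by
  haveI := countable_field621 K
  exact Function.Surjective.countable
    (f := (algebraMap K (Adl K)).toAddMonoidHom.rangeRestrict)
    (algebraMap K (Adl K)).toAddMonoidHom.rangeRestrict_surjective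

/-! ## The sub-leaf -/

/-- **T2.07.13 `SubCirclePres429`** from `SubLocCont429` (T2.07.30). -/
theorem subCirclePres_of621 (K : Type) [Field K] [NumberField K] (hLC : SubLocCont429 K) :
    SubCirclePres429 K := by
  intro 𝔫 c w hw t _ Y hY φ hφ
  have hYc : Continuous Y := continuous_circle621 hLC w t Y hY
  have hper := periodic_circle621 φ hφ.arch_compact w t Y hY
  refine ⟨?_, ?_, ?_, ?_, ?_, ?_, ?_⟩
  · -- continuity
    have hf : Continuous (Function.uncurry fun (g : G K) (θ : ℝ) => φ (g * Y θ)) :=
      hφ.cont.comp (continuous_fst.mul (hYc.comp continuous_snd))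
    exact intervalIntegral.continuous_parametric_intervalIntegral_of_continuous' hf 0
      (2 * Real.pi)
  · -- boundedness
    obtain ⟨C, hC⟩ := hφ.bdd
    refine ⟨C * |2 * Real.pi - 0|, fun g => ?_⟩
    exact intervalIntegral.norm_integral_le_of_norm_le_const fun θ _ => hC _
  · -- left invariance
    intro γ g
    show (∫ θ in (0 : ℝ)..(2 * Real.pi),
        φ (Matrix.GeneralLinearGroup.map (algebraMap K (Adl K)) γ * g * Y θ))
      = ∫ θ in (0 : ℝ)..(2 * Real.pi), φ (g * Y θ)
    congr 1
    funext θ
    rw [mul_assoc]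
    exact hφ.left_inv γ _
  · -- level
    intro u hu g
    show (∫ θ in (0 : ℝ)..(2 * Real.pi), φ (g * u * Y θ))
      = ∫ θ in (0 : ℝ)..(2 * Real.pi), φ (g * Y θ)
    congr 1
    funext θ
    rw [mul_assoc, commute_of_trivInf621 w hu.1 (hY θ).1, ← mul_assoc]
    exact hφ.level_inv u hu _
  · -- positive scalars
    intro w' z hz g
    show (∫ θ in (0 : ℝ)..(2 * Real.pi), φ (g * z * Y θ))
      = ∫ θ in (0 : ℝ)..(2 * Real.pi), φ (g * Y θ)
    congr 1
    funext θ
    have hcomm : z * Y θ = Y θ * z := by
      by_cases h : w' = w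
      · subst h
        obtain ⟨r, -, hr⟩ := hz.2
        exact commute_of_scalar621 _ hz.1 (hY θ).1 (r : ℂ) hr
      · exact commute_of_ne621 h hz.1 (hY θ).1
    rw [mul_assoc, hcomm, ← mul_assoc]
    exact hφ.arch_scalar w' z hz _
  · -- compact groups
    intro w' k hk g
    show (∫ θ in (0 : ℝ)..(2 * Real.pi), φ (g * k * Y θ))
      = ∫ θ in (0 : ℝ)..(2 * Real.pi), φ (g * Y θ)
    by_cases h : w' = w
    · subst h
      obtain ⟨θ₀, hθ₀⟩ := exists_shift_circle621 _ hw t Y hY k hk
      have e1 : (fun θ => φ (g * k * Y θ)) = fun θ => (fun θ' => φ (g * Y θ')) (θ₀ + θ) := by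
        funext θ
        show φ (g * k * Y θ) = φ (g * Y (θ₀ + θ))
        rw [mul_assoc, hθ₀]
      rw [e1, intervalIntegral.integral_comp_add_left (fun θ' => φ (g * Y θ')) θ₀, add_zero]
      have e2 := (hper g).intervalIntegral_add_eq θ₀ 0
      rw [zero_add] at e2
      exact e2
    · congr 1
      funext θ
      rw [mul_assoc, commute_of_ne621 h hk.1 (hY θ).1, ← mul_assoc]
      exact hφ.arch_compact w' k hk _
  · -- cuspidality
    letI : MeasurableSpace (Adl K) := borel (Adl K)
    haveI : BorelSpace (Adl K) := ⟨rfl⟩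
    intro μ hμ D hD n hn g
    haveI := hμ
    haveI := countable_range621 K
    obtain ⟨D₀, -, hD₀, -, -, hfin⟩ := c.t1.addFundDom μ hμ
    have hD₀' : IsAddFundamentalDomain ((algebraMap K (Adl K)).toAddMonoidHom.range) D₀ μ := hD₀
    have hDfin : μ D < ⊤ := by
      rw [hD.measure_eq hD₀']
      exact hfin
    haveI : IsFiniteMeasure (μ.restrict D) := ⟨by rwa [Measure.restrict_apply_univ]⟩
    have hnc : Continuous n := continuous_unip621 n hn
    set f : Adl K → ℝ → ℂ := fun x θ => φ (n x * g * Y θ) with hf
    have hfc : Continuous (Function.uncurry f) :=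
      hφ.cont.comp
        (((hnc.comp continuous_fst).mul continuous_const).mul (hYc.comp continuous_snd))
    obtain ⟨C, hC⟩ := hφ.bdd
    have hint : Integrable (Function.uncurry f)
        ((μ.restrict D).prod (volume.restrict (Set.Ioc (0 : ℝ) (2 * Real.pi)))) :=
      Integrable.mono' (g := fun _ => C) (integrable_const C) hfc.aestronglyMeasurable
        (Filter.Eventually.of_forall fun p => hC _)
    have h1 : ∀ x : Adl K, circleMean Y φ (n x * g)
        = ∫ θ in Set.Ioc (0 : ℝ) (2 * Real.pi), f x θ := fun x =>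
      intervalIntegral.integral_of_le (by positivity)
    show ∫ x in D, circleMean Y φ (n x * g) ∂μ = 0
    simp only [h1]
    rw [integral_integral_swap hint]
    have h2 : ∀ θ : ℝ, ∫ x in D, f x θ ∂μ = 0 := fun θ => by
      have := hφ.cuspidal μ hμ D hD n hn (g * Y θ)
      simp only [hf, mul_assoc]
      exact this
    simp only [h2, integral_zero]

end Fermat.Agent.LT.T2.H621

end
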