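import Mathlib
import Fermat.Agent.LT.T2.H621.CirclePres
import Fermat.Agent.LT.T2.H472.LocContLeaf

/-!
# Row LT, tower T2, sub-leaf T2.07.13 `SubCirclePres429`: UNCONDITIONAL (helper621)

OFF-MAIN.  `subCirclePres621 K : SubCirclePres429 K`, with `SubLocCont429` of helper472
(`LT/T2/H472/LocContLeaf.lean`, byte-identical copy).
-/

set_option autoImplicit false

namespace Fermat.Agent.LT.T2.H621

/-- **T2.07.13 `SubCirclePres429`, PROVED** (no hypothesis). -/
theorem subCirclePres621 (K : Type) [Field K] [NumberField K] :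
    Fermat.Agent.LT.T2.H429.SubCirclePres429 K :=
  subCirclePres_of621 K (Fermat.Agent.LT.T2.H472.subLocCont472 K)

end Fermat.Agent.LT.T2.H621
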